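import Mathlib

set_option autoImplicit false

/-!
# Descent for finite-dimensional spaces of sequences

A finite-dimensional `K`-subspace `W` of `ι → K` which is stable under a family `Σ` of ring
endomorphisms of `K` acting coefficientwise is spanned by its `Σ`-fixed vectors.
(Choose coordinates `c₁, …, c_d` such that `W → K^d` is bijective; the dual basis is unique,
hence fixed by every `σ ∈ Σ`.)
-/

namespace Fermat.Agent.S23Lib

open Module

variable {K : Type*} [Field K] {ι : Type*}

/-- "Reduced echelon form": coordinates `c` and a dual family `e` in `W`. -/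
theorem exists_coord_dual_family (W : Submodule K (ι → K)) [FiniteDimensional K W] :
    ∃ (n : ℕ) (c : Fin n → ι) (e : Fin n → (ι → K)),
      (∀ a, e a ∈ W) ∧ (∀ a b, e a (c b) = if a = b then 1 else 0) ∧
      (∀ w ∈ W, w = ∑ a, w (c a) • e a) := by
  classical
  let φ : ι → Module.Dual K W := fun i => (LinearMap.proj i).comp W.subtype
  have hφ : ∀ i (w : W), φ i w = (w : ι → K) i := fun i w => rfl
  have hspan : Submodule.span K (Set.range φ) = ⊤ := by
    have h1 : (Submodule.span K (Set.range φ)).dualCoannihilator = ⊥ := by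
      rw [eq_bot_iff]
      intro w hw
      rw [Submodule.mem_dualCoannihilator] at hw
      rw [Submodule.mem_bot]
      apply Subtype.ext
      funext i
      exact hw (φ i) (Submodule.subset_span ⟨i, rfl⟩)
    rw [← Subspace.dualCoannihilator_dualAnnihilator_eq
      (W := Submodule.span K (Set.range φ)), h1, Submodule.dualAnnihilator_bot]
  obtain ⟨b, hbsub, hbspan, hbli⟩ := exists_linearIndependent K (Set.range φ)
  let B : Basis b K (Module.Dual K W) :=
    Basis.mk hbli (by rw [Subtype.range_coe, hbspan, hspan])
  have hB : ∀ a : b, B a = (a : Module.Dual K W) := fun a => by simp [B]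
  have : Fintype b := FiniteDimensional.fintypeBasisIndex B
  -- each element of `b` is a coordinate functional
  have hc : ∀ a : b, ∃ i, φ i = (a : Module.Dual K W) := fun a => hbsub a.2
  choose c hc using hc
  have hBc : ∀ (a : b) (w : W), B a w = (w : ι → K) (c a) := by
    intro a w
    rw [hB, ← hc a, hφ]
  let ev := Module.evalEquiv K W
  let e : b → W := fun a => ev.symm (B.dualBasis a)
  have he : ∀ a a' : b, (B a') (e a) = if a' = a then 1 else 0 := by
    intro a a'
    have : (B a') (e a) = ev (e a) (B a') := rfl
    rw [this]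
    simp only [e, LinearEquiv.apply_symm_apply]
    exact Basis.dualBasis_apply_self B a a'
  -- the functionals `B a` separate points
  have hsep : ∀ x y : W, (∀ a, B a x = B a y) → x = y := by
    intro x y h
    rw [← sub_eq_zero, ← Module.forall_dual_apply_eq_zero_iff K]
    intro ψ
    have hψ : ψ = ∑ a, (B.repr ψ a) • B a := (B.sum_repr ψ).symm
    rw [hψ, LinearMap.sum_apply]
    refine Finset.sum_eq_zero fun a _ => ?_
    rw [LinearMap.smul_apply, map_sub, h a, sub_self, smul_zero]
  have hexp : ∀ w : W, w = ∑ a, ((w : ι → K) (c a)) • e a := by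
    intro w
    apply hsep
    intro a'
    rw [map_sum]
    simp only [map_smul, he, smul_eq_mul, mul_ite, mul_one, mul_zero]
    rw [Finset.sum_ite_eq Finset.univ a' fun a => (w : ι → K) (c a)]
    simp only [Finset.mem_univ, if_true]
    exact hBc a' w
  let eq := Fintype.equivFin b
  refine ⟨Fintype.card b, fun a => c (eq.symm a), fun a => (e (eq.symm a) : ι → K),
    fun a => (e _).2, ?_, ?_⟩
  · intro a a'
    have h := he (eq.symm a) (eq.symm a')
    rw [hBc] at h
    show (e (eq.symm a) : ι → K) (c (eq.symm a')) = _
    rw [h]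
    by_cases haa : a = a'
    · subst haa; simp
    · rw [if_neg haa, if_neg]
      intro h'
      exact haa (eq.symm.injective h').symm
  · intro w hw
    have key := congrArg (Subtype.val) (hexp ⟨w, hw⟩)
    simp only [Submodule.coe_sum, Submodule.coe_smul] at key
    show w = ∑ a, w (c (eq.symm a)) • (e (eq.symm a) : ι → K)
    rw [Equiv.sum_comp eq.symm fun a => w (c a) • (e a : ι → K)]
    exact key

/-- A finite-dimensional subspace of `ι → K` stable under a family of coefficientwise ring
endomorphisms is spanned by its fixed vectors. -/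
theorem le_span_fixed_of_stable (S : Set (K →+* K)) (W : Submodule K (ι → K))
    [FiniteDimensional K W]
    (hW : ∀ σ ∈ S, ∀ w ∈ W, (fun i => σ (w i)) ∈ W) :
    W ≤ Submodule.span K {w | w ∈ W ∧ ∀ σ ∈ S, ∀ i, σ (w i) = w i} := by
  classical
  obtain ⟨n, c, e, heW, hec, hexp⟩ := exists_coord_dual_family W
  have hfix : ∀ a, ∀ σ ∈ S, ∀ i, σ (e a i) = e a i := by
    intro a σ hσ i
    have h1 := hexp _ (hW σ hσ (e a) (heW a))
    have h2 : (fun i => σ (e a i)) = e a := by
      rw [h1]
      have : ∀ b, σ (e a (c b)) = if a = b then 1 else 0 := by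
        intro b
        rw [hec]
        split_ifs <;> simp
      simp only [this]
      simp
    exact congrFun h2 i
  intro w hw
  rw [hexp w hw]
  exact Submodule.sum_mem _ fun a _ => Submodule.smul_mem _ _
    (Submodule.subset_span ⟨heW a, hfix a⟩)

/-- Galois descent for spaces of sequences: `k`-rational vectors span. -/
theorem le_span_rational_of_galois_stable (k : Type*) [Field k] [Algebra k K] [IsGalois k K]
    (W : Submodule K (ι → K)) [FiniteDimensional K W]
    (hW : ∀ σ : K ≃ₐ[k] K, ∀ w ∈ W, (fun i => σ (w i)) ∈ W) :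
    W ≤ Submodule.span K {w | w ∈ W ∧ ∀ i, w i ∈ Set.range (algebraMap k K)} := by
  refine (le_span_fixed_of_stable
    (Set.range fun σ : K ≃ₐ[k] K => ((σ : K →ₐ[k] K) : K →+* K)) W ?_).trans
    (Submodule.span_mono ?_)
  · rintro _ ⟨σ, rfl⟩ w hw
    exact hW σ w hw
  · rintro w ⟨hw, hfix⟩
    refine ⟨hw, fun i => ?_⟩
    rw [InfiniteGalois.mem_range_algebraMap_iff_fixed]
    intro σ
    exact hfix _ ⟨σ, rfl⟩ i

end Fermat.Agent.S23Lib
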