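import Mathlib
import Fermat.Agent.Lib.Helper8.HeckeQCoeff

set_option autoImplicit false

/-!
# The `n`-th Hecke operator inside the integral Hecke algebra (weight 2)

For every `n ≥ 1` there is an element `T` of `CuspForm.heckeAlgebra N 2 ∅` with
`a₁(T f) = aₙ(f)` for every cusp form `f`.  Consequently a cusp form is determined by the
functional `T ↦ a₁(T f)` on the Hecke algebra.
-/

namespace Fermat.Agent.S23Lib

open ModularFormClass Fermat.Agent.Lib.Helper8

local notation "Γ₀(" N ")" => CongruenceSubgroup.Gamma0 N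

variable {N : ℕ} [NeZero N]

/-- For every `n ≥ 1` there is `T ∈ 𝕋` with `a₁(T f) = aₙ(f)` for all `f`. -/
theorem exists_hecke_coeff (n : ℕ) (hn : 1 ≤ n) :
    ∃ T ∈ CuspForm.heckeAlgebra N 2 ∅,
      ∀ f : CuspForm Γ₀(N) 2, qCoeff ⇑(T f) 1 = qCoeff ⇑f n := by
  induction n using Nat.strong_induction_on with
  | _ n ih =>
    rcases Nat.eq_or_lt_of_le hn with h1 | h1
    · subst h1
      exact ⟨1, one_mem _, fun f => rfl⟩
    · have hp : (n.minFac).Prime := Nat.minFac_prime (by omega)
      set p := n.minFac with hpdef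
      obtain ⟨m, hm⟩ : ∃ m, n = m * p := ⟨n / p, (Nat.div_mul_cancel (Nat.minFac_dvd n)).symm⟩
      have hm1 : 1 ≤ m := by
        rcases Nat.eq_zero_or_pos m with h0 | h0
        · subst h0; omega
        · exact h0
      have hmn : m < n := by
        rw [hm]
        have := hp.two_le
        nlinarith
      obtain ⟨Tm, hTm, hTm'⟩ := ih m hmn hm1
      by_cases hpN : p ∣ N
      · refine ⟨Tm * CuspForm.heckeULin 2 hpN, mul_mem hTm
          (CuspForm.heckeULin_mem_heckeAlgebra hp hpN (Set.notMem_empty _)), fun f => ?_⟩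
        rw [Module.End.mul_apply, hTm', h8_qCoeff_heckeULin hp hpN, hm]
      · by_cases hpm : p ∣ m
        · have hmp1 : 1 ≤ m / p := Nat.div_pos (Nat.le_of_dvd hm1 hpm) hp.pos
          have hmpn : m / p < n := lt_of_le_of_lt (Nat.div_le_self m p) hmn
          obtain ⟨Tq, hTq, hTq'⟩ := ih (m / p) hmpn hmp1
          refine ⟨Tm * CuspForm.heckeTLin 2 hp hpN - (p : ℤ) • Tq, sub_mem (mul_mem hTm
            (CuspForm.heckeTLin_mem_heckeAlgebra hp hpN (Set.notMem_empty _)))
            (Subalgebra.zsmul_mem _ hTq _), fun f => ?_⟩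
          rw [LinearMap.sub_apply, h8_qCoeff_sub, Module.End.mul_apply, hTm',
            h8_qCoeff_heckeTLin hp hpN, if_pos hpm, LinearMap.smul_apply, h8_qCoeff_zsmul, hTq',
            hm]
          norm_num
        · refine ⟨Tm * CuspForm.heckeTLin 2 hp hpN, mul_mem hTm
            (CuspForm.heckeTLin_mem_heckeAlgebra hp hpN (Set.notMem_empty _)), fun f => ?_⟩
          rw [Module.End.mul_apply, hTm', h8_qCoeff_heckeTLin hp hpN, if_neg hpm, hm, add_zero]

/-- A cusp form killed by all functionals `f ↦ a₁(T f)`, `T ∈ 𝕋`, is zero. -/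
theorem eq_zero_of_forall_hecke_coeff_one (f : CuspForm Γ₀(N) 2)
    (h : ∀ T ∈ CuspForm.heckeAlgebra N 2 ∅, qCoeff ⇑(T f) 1 = 0) : f = 0 := by
  refine h8_eq_zero_of_qCoeff f fun n => ?_
  rcases Nat.eq_zero_or_pos n with rfl | hn
  · exact h8_qCoeff_zero_eq f
  · obtain ⟨T, hT, hT'⟩ := exists_hecke_coeff (N := N) n hn
    rw [← hT' f]
    exact h T hT

end Fermat.Agent.S23Lib
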