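import Mathlib
import Fermat.Agent.Lib.S23.HeckeTn
import Fermat.Agent.Lib.S22.HeckeFinite

set_option autoImplicit false

/-!
# From rational to integral `q`-expansions (weight 2, level `Γ₀(N)`)

If the cusp forms with rational `q`-coefficients span `S₂(Γ₀(N))` over `ℂ`, then so do the
forms with integral coefficients.  The proof uses the finite generation of the Hecke algebra
over `ℤ`: for a rational form `f` the functional `T ↦ a₁(T f)` has finitely generated image
in `ℚ`, hence bounded denominators, and `aₙ(f) = a₁(Tₙ f)`.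
-/

namespace Fermat.Agent.S23Lib

open ModularFormClass Fermat.Agent.Lib.Helper8

local notation "Γ₀(" N ")" => CongruenceSubgroup.Gamma0 N

variable {N : ℕ} [NeZero N]

/-- all `q`-coefficients of the cusp form are rational numbers -/
def IsRatForm (f : CuspForm Γ₀(N) 2) : Prop :=
  ∀ n : ℕ, ∃ r : ℚ, qCoeff ⇑f n = (r : ℂ)

omit [NeZero N] in
theorem isRatForm_add {f g : CuspForm Γ₀(N) 2} (hf : IsRatForm f) (hg : IsRatForm g) :
    IsRatForm (f + g) := by
  intro n
  obtain ⟨r, hr⟩ := hf n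
  obtain ⟨s, hs⟩ := hg n
  exact ⟨r + s, by rw [h8_qCoeff_add, hr, hs]; push_cast; ring⟩

omit [NeZero N] in
theorem isRatForm_zsmul (c : ℤ) {f : CuspForm Γ₀(N) 2} (hf : IsRatForm f) :
    IsRatForm (c • f) := by
  intro n
  obtain ⟨r, hr⟩ := hf n
  exact ⟨c * r, by rw [h8_qCoeff_zsmul, hr]; push_cast; ring⟩

omit [NeZero N] in
theorem isRatForm_heckeTLin {p : ℕ} (hp : p.Prime) (hpN : ¬ p ∣ N) {f : CuspForm Γ₀(N) 2}
    (hf : IsRatForm f) : IsRatForm (CuspForm.heckeTLin 2 hp hpN f) := by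
  intro n
  obtain ⟨r, hr⟩ := hf (n * p)
  obtain ⟨s, hs⟩ := hf (n / p)
  rw [h8_qCoeff_heckeTLin hp hpN, hr, hs]
  by_cases hpn : p ∣ n
  · exact ⟨r + p * s, by rw [if_pos hpn]; push_cast; norm_num⟩
  · exact ⟨r, by rw [if_neg hpn, add_zero]⟩

theorem isRatForm_heckeULin {p : ℕ} (hp : p.Prime) (hpN : p ∣ N) {f : CuspForm Γ₀(N) 2}
    (hf : IsRatForm f) : IsRatForm (CuspForm.heckeULin 2 hpN f) := by
  intro n
  obtain ⟨r, hr⟩ := hf (n * p)
  exact ⟨r, by rw [h8_qCoeff_heckeULin hp hpN, hr]⟩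

/-- The Hecke algebra preserves rationality of `q`-expansions. -/
theorem isRatForm_of_mem_heckeAlgebra {T : Module.End ℂ (CuspForm Γ₀(N) 2)}
    (hT : T ∈ CuspForm.heckeAlgebra N 2 ∅) :
    ∀ f : CuspForm Γ₀(N) 2, IsRatForm f → IsRatForm (T f) := by
  unfold CuspForm.heckeAlgebra at hT
  induction hT using Algebra.adjoin_induction with
  | mem x hx =>
    rcases hx with ⟨ℓ, hℓ, hℓN, -, rfl⟩ | ⟨q, hqN, hq, -, rfl⟩
    · exact fun f hf => isRatForm_heckeTLin hℓ hℓN hf
    · exact fun f hf => isRatForm_heckeULin hq hqN hf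
  | algebraMap r =>
    intro f hf
    have : (algebraMap ℤ (Module.End ℂ (CuspForm Γ₀(N) 2)) r) f = r • f := by
      rw [Algebra.algebraMap_eq_smul_one, LinearMap.smul_apply, Module.End.one_apply]
    rw [this]
    exact isRatForm_zsmul r hf
  | add x y _ _ hx hy =>
    intro f hf
    rw [LinearMap.add_apply]
    exact isRatForm_add (hx f hf) (hy f hf)
  | mul x y _ _ hx hy =>
    intro f hf
    rw [Module.End.mul_apply]
    exact hx _ (hy f hf)

/-- Bounded denominators: a rational cusp form has a nonzero integer multiple with integral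
`q`-expansion. -/
theorem exists_nat_smul_mem_intLattice {f : CuspForm Γ₀(N) 2} (hf : IsRatForm f) :
    ∃ D : ℕ, 0 < D ∧ ((D : ℤ) • f) ∈ CuspForm.intLattice N 2 := by
  classical
  have : Module.Finite ℤ (CuspForm.heckeAlgebra N 2 ∅) :=
    Fermat.Agent.S22Lib.moduleFinite_heckeAlgebra N 2 ∅
  obtain ⟨s, hs⟩ := (Module.finite_def.mp this : (⊤ : Submodule ℤ
    (CuspForm.heckeAlgebra N 2 ∅)).FG)
  -- rational values on the generators
  have hrat : ∀ t : CuspForm.heckeAlgebra N 2 ∅, ∃ r : ℚ,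
      qCoeff ⇑((t : Module.End ℂ (CuspForm Γ₀(N) 2)) f) 1 = (r : ℂ) :=
    fun t => isRatForm_of_mem_heckeAlgebra t.2 f hf 1
  choose r hr using hrat
  refine ⟨∏ t ∈ s, (r t).den, Finset.prod_pos fun t _ => (r t).den_pos, ?_⟩
  set D : ℕ := ∏ t ∈ s, (r t).den with hD
  -- integrality of `D * a₁(T f)` for all `T`
  have key : ∀ T : CuspForm.heckeAlgebra N 2 ∅, ∃ m : ℤ,
      (D : ℂ) * qCoeff ⇑((T : Module.End ℂ (CuspForm Γ₀(N) 2)) f) 1 = (m : ℂ) := by
    intro T
    have hT : T ∈ Submodule.span ℤ (s : Set (CuspForm.heckeAlgebra N 2 ∅)) := by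
      rw [hs]; exact Submodule.mem_top
    induction hT using Submodule.span_induction with
    | mem t ht =>
      obtain ⟨e, he⟩ : (r t).den ∣ D := Finset.dvd_prod_of_mem _ ht
      refine ⟨(e : ℤ) * (r t).num, ?_⟩
      rw [hr t, he]
      have hden : ((r t).den : ℂ) ≠ 0 := Nat.cast_ne_zero.mpr (r t).den_ne_zero
      have hq : ((r t : ℚ) : ℂ) = ((r t).num : ℂ) / ((r t).den : ℂ) := by
        conv_lhs => rw [← Rat.num_div_den (r t)]
        push_cast
        rfl
      rw [hq]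
      push_cast
      field_simp
    | zero =>
      refine ⟨0, ?_⟩
      have h0 : ((0 : CuspForm.heckeAlgebra N 2 ∅) : Module.End ℂ (CuspForm Γ₀(N) 2)) f
          = (0 : ℤ) • f := by
        rw [zero_smul, ZeroMemClass.coe_zero, LinearMap.zero_apply]
      rw [h0, h8_qCoeff_zsmul]
      simp
    | add x y _ _ hx hy =>
      obtain ⟨a, ha⟩ := hx
      obtain ⟨b, hb⟩ := hy
      refine ⟨a + b, ?_⟩
      rw [Subalgebra.coe_add, LinearMap.add_apply, h8_qCoeff_add, mul_add, ha, hb]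
      push_cast
      rfl
    | smul c x _ hx =>
      obtain ⟨a, ha⟩ := hx
      refine ⟨c * a, ?_⟩
      rw [Subalgebra.coe_smul, LinearMap.smul_apply, h8_qCoeff_zsmul, mul_left_comm, ha]
      push_cast
      rfl
  rw [h8_mem_intLattice_iff]
  intro n
  rcases Nat.eq_zero_or_pos n with rfl | hn
  · exact ⟨0, by rw [h8_qCoeff_zero_eq]; simp⟩
  · obtain ⟨T, hT, hT'⟩ := exists_hecke_coeff (N := N) n hn
    obtain ⟨m, hm⟩ := key ⟨T, hT⟩
    refine ⟨m, ?_⟩
    rw [h8_qCoeff_zsmul, ← hT' f, ← hm]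
    push_cast
    rfl

/-- **Rational structure ⇒ integral structure.** -/
theorem hasIntegralStructure_of_rational_span
    (h : Submodule.span ℂ {f : CuspForm Γ₀(N) 2 | IsRatForm f} = ⊤) :
    CuspForm.HasIntegralStructure N 2 := by
  unfold CuspForm.HasIntegralStructure
  rw [eq_top_iff, ← h, Submodule.span_le]
  intro f hf
  obtain ⟨D, hD, hDf⟩ := exists_nat_smul_mem_intLattice hf
  have hD0 : (D : ℂ) ≠ 0 := Nat.cast_ne_zero.mpr hD.ne'
  have : f = ((D : ℂ)⁻¹) • ((D : ℤ) • f) := by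
    rw [← Int.cast_smul_eq_zsmul ℂ, smul_smul]
    push_cast
    rw [inv_mul_cancel₀ hD0, one_smul]
  rw [this]
  exact Submodule.smul_mem _ _ (Submodule.subset_span hDf)

end Fermat.Agent.S23Lib
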