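import Mathlib
import Fermat.Agent.Lib.S23.RationalToIntegral
import Fermat.Agent.Lib.S23.GaloisDescent

set_option autoImplicit false

/-!
# Integral structure from a Galois-stable space of `q`-expansions

Let `K/ℚ` be Galois (e.g. `K = AlgebraicClosure ℚ`) with an embedding `ι : K →+* ℂ`, and let
`W` be a finite-dimensional `K`-space of sequences, stable under the coefficientwise Galois
action, such that every `w ∈ W` is (via `ι`) the `q`-expansion of a weight-2 cusp form on
`Γ₀(N)` and these cusp forms span `S₂(Γ₀(N))`.  Then `S₂(Γ₀(N))` has an integral structure.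
-/

namespace Fermat.Agent.S23Lib

open ModularFormClass Fermat.Agent.Lib.Helper8

local notation "Γ₀(" N ")" => CongruenceSubgroup.Gamma0 N

variable {N : ℕ} [NeZero N]

theorem hasIntegralStructure_of_galoisStable {K : Type*} [Field K] [Algebra ℚ K] [IsGalois ℚ K]
    (ι : K →+* ℂ) (W : Submodule K (ℕ → K)) [FiniteDimensional K W]
    (hstable : ∀ σ : K ≃ₐ[ℚ] K, ∀ w ∈ W, (fun n => σ (w n)) ∈ W)
    (hform : ∀ w ∈ W, ∃ f : CuspForm Γ₀(N) 2, ∀ n, qCoeff ⇑f n = ι (w n))
    (hspan : Submodule.span ℂ
      {f : CuspForm Γ₀(N) 2 | ∃ w ∈ W, ∀ n, qCoeff ⇑f n = ι (w n)} = ⊤) :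
    CuspForm.HasIntegralStructure N 2 := by
  apply hasIntegralStructure_of_rational_span
  rw [eq_top_iff, ← hspan, Submodule.span_le]
  rintro f ⟨w, hw, hfw⟩
  have hdesc := le_span_rational_of_galois_stable ℚ W hstable hw
  have hle : Submodule.span K {w | w ∈ W ∧ ∀ i, w i ∈ Set.range (algebraMap ℚ K)} ≤ W :=
    Submodule.span_le.mpr fun w hw => hw.1
  -- induction over the span
  have key : ∀ w, w ∈ Submodule.span K {w | w ∈ W ∧ ∀ i, w i ∈ Set.range (algebraMap ℚ K)} →
      ∀ f : CuspForm Γ₀(N) 2, (∀ n, qCoeff ⇑f n = ι (w n)) →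
        f ∈ Submodule.span ℂ {f : CuspForm Γ₀(N) 2 | IsRatForm f} := by
    intro w hw
    induction hw using Submodule.span_induction with
    | mem w hw =>
      intro f hf
      refine Submodule.subset_span fun n => ?_
      obtain ⟨r, hr⟩ := hw.2 n
      refine ⟨r, ?_⟩
      rw [hf n, ← hr]
      exact map_ratCast (ι.comp (algebraMap ℚ K)) r |>.trans (by simp)
    | zero =>
      intro f hf
      have : f = 0 := h8_eq_zero_of_qCoeff f fun n => by rw [hf n]; simp
      rw [this]
      exact Submodule.zero_mem _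
    | add x y hx hy ihx ihy =>
      intro f hf
      obtain ⟨fx, hfx⟩ := hform x (hle hx)
      obtain ⟨fy, hfy⟩ := hform y (hle hy)
      have : f = fx + fy := by
        rw [← sub_eq_zero]
        refine h8_eq_zero_of_qCoeff _ fun n => ?_
        rw [h8_qCoeff_sub, h8_qCoeff_add, hf n, hfx n, hfy n, Pi.add_apply, map_add, sub_self]
      rw [this]
      exact Submodule.add_mem _ (ihx fx hfx) (ihy fy hfy)
    | smul c x hx ihx =>
      intro f hf
      obtain ⟨fx, hfx⟩ := hform x (hle hx)
      have : f = (ι c) • fx := by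
        rw [← sub_eq_zero]
        refine h8_eq_zero_of_qCoeff _ fun n => ?_
        rw [h8_qCoeff_sub, h8_qCoeff_smul, hf n, hfx n, Pi.smul_apply, smul_eq_mul, map_mul,
          sub_self]
      rw [this]
      exact Submodule.smul_mem _ _ (ihx fx hfx)
  exact key w hdesc f hfw

end Fermat.Agent.S23Lib
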