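import Mathlib
import Fermat.Prelude.Def_AlgebraicCurve_BaseChangeGalois
import Fermat.Agent.Lib.Curve.RiemannRoch
import Fermat.Agent.Lib.Curve.DictAlg

set_option autoImplicit false

/-!
# Semilinear automorphisms preserve regular differentials

Let `F / K` be a function field with generator `x` and let `g` be a semilinear automorphism of
`F / K` (e.g. a Galois conjugation of the constants) fixing `x`.  If `h dx` is a regular
differential then so is `(g h) dx`.
-/

namespace Fermat.Agent.S23Lib

open AlgebraicCurve KaehlerDifferential Fermat.Agent.Curve PlaceAux

variable {K F : Type*} [Field K] [Field F] [Algebra K F] [IsAlgClosed K] [CharZero K]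
variable {x : F} (hx : IsFunctionFieldGen K F x)

include hx in
/-- the order of `dx` at `g • v` equals its order at `v` when `g` fixes `x` -/
theorem ordDifferential_D_smul_place (g : SemilinearAut K F) (hg : g • x = x) (v : Place K F) :
    (g • v).ordDifferential (D K F x) = v.ordDifferential (D K F x) := by
  by_cases hneg : v.ord x < 0
  · have h1 : (g • v).ord x < 0 := by
      have := SemilinearAut.ord_smul g v x
      rw [hg] at this
      rw [this]
      exact hneg
    rw [ordDifferential_D_of_neg hx v x hneg, ordDifferential_D_of_neg hx (g • v) x h1]
    have := SemilinearAut.ord_smul g v x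
    rw [hg] at this
    rw [this]
  · have hmem : x ∈ v.toValuationSubring := mem_of_ord_nonneg v (not_lt.mp hneg)
    obtain ⟨c, hc⟩ := exists_const_ordGE_one hx v hmem
    have hxc := gen_sub_const_ne_zero hx c
    rw [ordGE_iff] at hc
    have hpos : 0 < v.ord (x - algebraMap K F c) := by
      rcases hc with hc | hc
      · exact absurd hc hxc
      · omega
    have hsm : g • (x - algebraMap K F c)
        = x - algebraMap K F (SemilinearAut.baseAut g c) := by
      rw [smul_sub, hg, SemilinearAut.smul_algebraMap]
    have hord : (g • v).ord (x - algebraMap K F (SemilinearAut.baseAut g c))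
        = v.ord (x - algebraMap K F c) := by
      rw [← hsm]
      exact SemilinearAut.ord_smul g v _
    have hpos' : 0 < (g • v).ord (x - algebraMap K F (SemilinearAut.baseAut g c)) := by
      rw [hord]; exact hpos
    rw [ordDifferential_D_of_pos hx v x c hpos,
      ordDifferential_D_of_pos hx (g • v) x _ hpos', hord]

/-- **Semilinear automorphisms fixing the generator preserve regular differentials.** -/
theorem smul_mem_regularDifferentials (g : SemilinearAut K F) (hg : g • x = x) {h : F}
    (hreg : h • D K F x ∈ regularDifferentials hx) :
    (g • h) • D K F x ∈ regularDifferentials hx := by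
  by_cases hh : h = 0
  · rw [hh, smul_zero, zero_smul]
    exact Submodule.zero_mem _
  have hgh : g • h ≠ 0 := by
    intro h0
    apply hh
    have := congrArg (g⁻¹ • ·) h0
    simpa using this
  have hD := D_gen_ne_zero hx
  intro v
  -- write `v = g • v'`
  set v' : Place K F := g⁻¹ • v with hv'
  have hv : v = g • v' := by rw [hv', smul_inv_smul]
  have h1 : 0 ≤ v'.ordDifferential (h • D K F x) := hreg v'
  rw [ordDifferential_smul' hx v' hh hD] at h1
  rw [ordDifferential_smul' hx v hgh hD, hv, SemilinearAut.ord_smul g v' h,
    ordDifferential_D_smul_place hx g hg v']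
  exact h1

/-- The `K`-space of coefficients `h` such that `h dx` is a regular differential. -/
noncomputable def regCoeff : Submodule K F :=
  (regularDifferentials hx).comap ((LinearMap.toSpanSingleton F Ω[F⁄K] (D K F x)).restrictScalars K)

theorem mem_regCoeff {h : F} : h ∈ regCoeff hx ↔ h • D K F x ∈ regularDifferentials hx := Iff.rfl

theorem regCoeff_le_riemannRochSpace :
    regCoeff hx ≤ riemannRochSpace (divDiff hx (D K F x)) := by
  intro h hh
  rw [mem_regCoeff] at hh
  rw [mem_riemannRochSpace_iff]
  intro v
  by_cases h0 : h = 0
  · exact Or.inl h0
  · right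
    have hD := D_gen_ne_zero hx
    have h1 : 0 ≤ v.ordDifferential (h • D K F x) := hh v
    rw [ordDifferential_smul' hx v h0 hD] at h1
    rw [divDiff_apply hx hD]
    omega

instance finiteDimensional_regCoeff : FiniteDimensional K ↥(regCoeff hx) := by
  have := finiteDimensional_riemannRochSpace hx (divDiff hx (D K F x))
  exact Submodule.finiteDimensional_of_le (regCoeff_le_riemannRochSpace hx)

/-- `regCoeff` is linearly equivalent to the space of regular differentials -/
noncomputable def regCoeffEquiv : ↥(regCoeff hx) ≃ₗ[K] ↥(regularDifferentials hx) :=
  LinearEquiv.ofBijective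
    { toFun := fun h => ⟨(h : F) • D K F x, h.2⟩
      map_add' := fun f g => by
        apply Subtype.ext
        show ((f : F) + (g : F)) • D K F x = (f : F) • D K F x + (g : F) • D K F x
        rw [add_smul]
      map_smul' := fun c f => by
        apply Subtype.ext
        show (c • (f : F)) • D K F x = c • ((f : F) • D K F x)
        rw [smul_assoc] }
    (by
      constructor
      · intro f g hfg
        have h1 : (f : F) • D K F x = (g : F) • D K F x := congrArg Subtype.val hfg
        apply Subtype.ext
        rw [← sub_eq_zero, ← sub_smul] at h1
        rcases smul_eq_zero.mp h1 with h2 | h2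
        · exact sub_eq_zero.mp h2
        · exact absurd h2 (D_gen_ne_zero hx)
      · intro ω
        obtain ⟨L, -, hL⟩ := exists_coeff_regularDifferentials hx
        refine ⟨⟨L ω, ?_⟩, ?_⟩
        · rw [mem_regCoeff, hL]
          exact ω.2
        · apply Subtype.ext
          exact hL ω)

theorem finrank_regCoeff : Module.finrank K ↥(regCoeff hx) = genusR K F := by
  rw [(regCoeffEquiv hx).finrank_eq, finrank_regularDifferentials]

theorem smul_mem_regCoeff (g : SemilinearAut K F) (hg : g • x = x) {h : F}
    (hh : h ∈ regCoeff hx) : g • h ∈ regCoeff hx :=
  smul_mem_regularDifferentials hx g hg hh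

end Fermat.Agent.S23Lib
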