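import Mathlib
import Fermat.Prelude.Def_ModularCurve_ArithmeticGalois
import Fermat.Agent.Lib.S24.JBar
import Fermat.Agent.Lib.S23.RegularGalois
import Fermat.Agent.Lib.S23.IntegralOfGalois
import Fermat.Agent.Lib.X015.FixedField

set_option autoImplicit false

/-!
# Galois stability of the `q`-expansions of regular differentials on `X₀(N)`

The arithmetic Galois action (coefficientwise on Laurent series) on the function field
`ℚ̄(X₀(N))` fixes `j`, hence preserves the space of coefficients `h` of regular differentials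
`h dj`.  Consequently for any Laurent series `θ` with rational coefficients the space of
sequences of coefficients of `h θ` is Galois stable, and the abstract descent theorem applies.
-/

namespace Fermat.Agent.S23Lib

open ModularCurve AlgebraicCurve ModularFormClass Fermat.Agent.S24Lib Fermat.Agent.Curve

local notation "Kbar" => AlgebraicClosure ℚ
local notation "Γ₀(" N ")" => CongruenceSubgroup.Gamma0 N

variable (N : ℕ) [NeZero N]

theorem arithmeticGalois_smul_jBar (σ : Kbar ≃ₐ[ℚ] Kbar) :
    arithmeticGalois (modularFunctionFieldFull N) σ • jBar N = jBar N := by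
  apply Subtype.ext
  rw [coe_arithmeticGalois_smul, coe_jBar', coeffMap_coeffEmb]

/-- the sequence of coefficients of nonnegative index of `h * θ` -/
noncomputable def coeffSeq (θ : LaurentSeries Kbar) :
    modularFunctionFieldBar N →ₗ[Kbar] (ℕ → Kbar) where
  toFun h n := ((h : LaurentSeries Kbar) * θ).coeff (n : ℤ)
  map_add' h h' := by
    funext n
    simp only [IntermediateField.coe_add, add_mul, HahnSeries.coeff_add, Pi.add_apply]
  map_smul' c h := by
    funext n
    simp only [IntermediateField.coe_smul, smul_mul_assoc, Pi.smul_apply, RingHom.id_apply]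
    rw [Algebra.smul_def, algebraMap_laurentSeries_eq_single, smul_eq_mul]
    simp

omit [NeZero N] in
theorem coeffSeq_apply (θ : LaurentSeries Kbar) (h : modularFunctionFieldBar N) (n : ℕ) :
    coeffSeq N θ h n = ((h : LaurentSeries Kbar) * θ).coeff (n : ℤ) := rfl

omit [NeZero N] in
theorem coeffSeq_galois_smul (θ : LaurentSeries Kbar)
    (hθ : ∀ σ : Kbar ≃ₐ[ℚ] Kbar, coeffMap (σ : Kbar →+* Kbar) θ = θ)
    (σ : Kbar ≃ₐ[ℚ] Kbar) (h : modularFunctionFieldBar N) :
    coeffSeq N θ (arithmeticGalois (modularFunctionFieldFull N) σ • h)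
      = fun n => σ (coeffSeq N θ h n) := by
  funext n
  rw [coeffSeq_apply, coeffSeq_apply, coe_arithmeticGalois_smul]
  conv_lhs => rw [← hθ σ, ← map_mul]
  rw [coeffMap_coeff]
  rfl

variable (hx : IsFunctionFieldGen Kbar (modularFunctionFieldBar N) (jBar N))

/-- the space of `q`-expansions `h θ`, `h dj` regular -/
noncomputable def dictSeqSpace (θ : LaurentSeries Kbar) : Submodule Kbar (ℕ → Kbar) :=
  (regCoeff hx).map (coeffSeq N θ)

instance finiteDimensional_dictSeqSpace (θ : LaurentSeries Kbar) :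
    FiniteDimensional Kbar ↥(dictSeqSpace N hx θ) := by
  unfold dictSeqSpace
  infer_instance

theorem dictSeqSpace_stable (θ : LaurentSeries Kbar)
    (hθ : ∀ σ : Kbar ≃ₐ[ℚ] Kbar, coeffMap (σ : Kbar →+* Kbar) θ = θ)
    (σ : Kbar ≃ₐ[ℚ] Kbar) (w : ℕ → Kbar) (hw : w ∈ dictSeqSpace N hx θ) :
    (fun n => σ (w n)) ∈ dictSeqSpace N hx θ := by
  obtain ⟨h, hh, rfl⟩ := hw
  refine ⟨arithmeticGalois (modularFunctionFieldFull N) σ • h,
    smul_mem_regCoeff hx _ (arithmeticGalois_smul_jBar N σ) hh, ?_⟩
  exact coeffSeq_galois_smul N θ hθ σ h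

/-- **S23 from the dictionary.**  If every regular differential `h dj` on `X₀(N)` gives a cusp
form with `q`-expansion `ι (h θ)` (`θ` rational) and these cusp forms span, then
`S₂(Γ₀(N))` has an integral structure. -/
theorem hasIntegralStructure_of_dictionary (θ : LaurentSeries Kbar)
    (hθ : ∀ σ : Kbar ≃ₐ[ℚ] Kbar, coeffMap (σ : Kbar →+* Kbar) θ = θ) (ι : Kbar →+* ℂ)
    (hform : ∀ h ∈ regCoeff hx, ∃ f : CuspForm Γ₀(N) 2, ∀ n : ℕ,
      qCoeff ⇑f n = ι (((h : LaurentSeries Kbar) * θ).coeff (n : ℤ)))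
    (hspan : Submodule.span ℂ {f : CuspForm Γ₀(N) 2 | ∃ h ∈ regCoeff hx, ∀ n : ℕ,
      qCoeff ⇑f n = ι (((h : LaurentSeries Kbar) * θ).coeff (n : ℤ))} = ⊤) :
    CuspForm.HasIntegralStructure N 2 := by
  have := Fermat.Agent.X015.isGalois_qbar
  refine hasIntegralStructure_of_galoisStable ι (dictSeqSpace N hx θ)
    (dictSeqSpace_stable N hx θ hθ) ?_ ?_
  · rintro w ⟨h, hh, rfl⟩
    exact hform h hh
  · rw [eq_top_iff, ← hspan]
    refine Submodule.span_mono ?_
    rintro f ⟨h, hh, hf⟩
    exact ⟨coeffSeq N θ h, ⟨h, hh, rfl⟩, hf⟩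

end Fermat.Agent.S23Lib
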