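import Mathlib
import Fermat.Prelude.Def_ModularCurve_JqCoeff
import Fermat.Prelude.Def_ModularCurve_LaurentCoeff
import Fermat.Prelude.Thm_ModularCurve_coeff_jqModC_neg_one
import Fermat.Agent.Lib.ES.QLaurentDeriv
import Fermat.Agent.Lib.S24.JLaurent

/-!
# The `q`-expansion of `D j = (2πi)⁻¹ j'`

`θ = q d/dq` on formal Laurent series; `thetaJ K = θ (j)` over any commutative ring `K`
(compatible with coefficient maps, in particular Galois-fixed), and
`qLaurent 1 (D jFun) = thetaJ ℂ`.
-/

set_option autoImplicit false

namespace Fermat.Agent.S23Lib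

open ModularCurve UpperHalfPlane Derivative Fermat.Agent.ES Fermat.Agent.S24Lib

section Formal

variable {R S : Type*} [CommRing R] [CommRing S]

/-- the formal operator `q d/dq` on Laurent series -/
noncomputable def qTheta (x : LaurentSeries R) : LaurentSeries R where
  coeff m := (m : R) * x.coeff m
  isPWO_support' := x.isPWO_support.mono fun m hm h0 => hm (by
    show (m : R) * x.coeff m = 0
    rw [h0, mul_zero])

@[simp]
theorem qTheta_coeff (x : LaurentSeries R) (m : ℤ) : (qTheta x).coeff m = (m : R) * x.coeff m :=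
  rfl

theorem coeffMap_qTheta (f : R →+* S) (x : LaurentSeries R) :
    coeffMap f (qTheta x) = qTheta (coeffMap f x) := by
  ext m
  simp only [coeffMap_coeff, qTheta_coeff, map_mul, map_intCast]

end Formal

/-- the formal series `q dj/dq` -/
noncomputable def thetaJ (K : Type*) [CommRing K] : LaurentSeries K := qTheta (jqModC K)

theorem coeffMap_thetaJ {K K' : Type*} [CommRing K] [CommRing K'] (f : K →+* K') :
    coeffMap f (thetaJ K) = thetaJ K' := by
  unfold thetaJ
  rw [coeffMap_qTheta]
  congr 1
  exact map_jqModC f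

theorem thetaJ_ne_zero (K : Type*) [CommRing K] [Nontrivial K] : thetaJ K ≠ 0 := by
  intro h
  have h1 := congrArg (fun x : LaurentSeries K => x.coeff (-1)) h
  simp only [thetaJ, qTheta_coeff, coeff_jqModC_neg_one, HahnSeries.coeff_zero] at h1
  simp at h1

/-- **The `q`-expansion of `D j`.** -/
theorem qLaurent_D_jFun : qLaurent 1 (D jFun) = thetaJ ℂ := by
  ext m
  rw [(qLaurent_D isQLaurentable_jFun).2 m, qLaurent_jFun, thetaJ, qTheta_coeff]
  simp

theorem isQLaurentable_D_jFun : IsQLaurentable 1 (D jFun) :=
  (qLaurent_D isQLaurentable_jFun).1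

end Fermat.Agent.S23Lib
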