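import Mathlib
import Fermat.Agent.Lib.S23.ModularStable
import Fermat.Agent.Lib.ES.DictLinIndep

set_option autoImplicit false

/-!
# The dictionary forms span `S₂(Γ₀(N))` (given the dimension count)

If every regular differential `h dj` gives a cusp form with `q`-expansion `ι (h θ)`
(`θ ≠ 0`, no polar part) and `dim S₂(Γ₀(N)) ≤ dim Ω(0)`, then these cusp forms span.
-/

namespace Fermat.Agent.S23Lib

open ModularCurve AlgebraicCurve ModularFormClass Fermat.Agent.S24Lib Fermat.Agent.Curve
open Fermat.Agent.Lib.Helper8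

local notation "Kbar" => AlgebraicClosure ℚ
local notation "Γ₀(" N ")" => CongruenceSubgroup.Gamma0 N

variable (N : ℕ) [NeZero N]

/-- the `m`-th `q`-coefficient as a linear functional -/
noncomputable def qCoeffLin (m : ℕ) : CuspForm Γ₀(N) 2 →ₗ[ℂ] ℂ where
  toFun f := qCoeff ⇑f m
  map_add' f g := h8_qCoeff_add f g m
  map_smul' c f := by
    rw [h8_qCoeff_smul, RingHom.id_apply, smul_eq_mul]

omit [NeZero N] in
theorem qCoeffLin_apply (m : ℕ) (f : CuspForm Γ₀(N) 2) : qCoeffLin N m f = qCoeff ⇑f m := rfl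

variable (hx : IsFunctionFieldGen Kbar (modularFunctionFieldBar N) (jBar N))

theorem span_eq_top_of_dictionary (θ : LaurentSeries Kbar) (hθ0 : θ ≠ 0) (ι : Kbar →+* ℂ)
    (hneg : ∀ h ∈ regCoeff hx, ∀ n : ℤ, n < 0 → ((h : LaurentSeries Kbar) * θ).coeff n = 0)
    (hform : ∀ h ∈ regCoeff hx, ∃ f : CuspForm Γ₀(N) 2, ∀ n : ℕ,
      qCoeff ⇑f n = ι (((h : LaurentSeries Kbar) * θ).coeff (n : ℤ)))
    [FiniteDimensional ℂ (CuspForm Γ₀(N) 2)]
    (hdim : Module.finrank ℂ (CuspForm Γ₀(N) 2) ≤ Module.finrank Kbar ↥(regCoeff hx)) :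
    Submodule.span ℂ {f : CuspForm Γ₀(N) 2 | ∃ h ∈ regCoeff hx, ∀ n : ℕ,
      qCoeff ⇑f n = ι (((h : LaurentSeries Kbar) * θ).coeff (n : ℤ))} = ⊤ := by
  classical
  set g := Module.finrank Kbar ↥(regCoeff hx) with hg
  have : Module.Free Kbar ↥(regCoeff hx) := Module.Free.of_divisionRing Kbar _
  let b : Module.Basis (Fin g) Kbar ↥(regCoeff hx) := Module.finBasis Kbar _
  -- the Laurent series `b i * θ`
  let m : ↥(regCoeff hx) →ₗ[Kbar] LaurentSeries Kbar :=
    { toFun := fun h => ((h : modularFunctionFieldBar N) : LaurentSeries Kbar) * θ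
      map_add' := fun h h' => by
        simp only [Submodule.coe_add, IntermediateField.coe_add, add_mul]
      map_smul' := fun c h => by
        simp only [Submodule.coe_smul, IntermediateField.coe_smul, smul_mul_assoc,
          RingHom.id_apply]
        ext n
        rw [Algebra.smul_def, algebraMap_laurentSeries_eq_single]
        simp }
  have hm : ∀ h, m h = ((h : modularFunctionFieldBar N) : LaurentSeries Kbar) * θ := fun _ => rfl
  have hminj : Function.Injective m := by
    intro h h' hh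
    rw [hm, hm] at hh
    have := mul_right_cancel₀ hθ0 hh
    exact Subtype.ext (Subtype.ext this)
  have hli_s : LinearIndependent Kbar (fun i => m (b i)) :=
    b.linearIndependent.map' m (LinearMap.ker_eq_bot.mpr hminj)
  have hli_c : LinearIndependent ℂ (fun i => coeffMap ι (m (b i))) :=
    Fermat.Agent.ES.linearIndependent_coeffMap_ringHom ι _ hli_s
  have hf : ∀ i, ∃ f : CuspForm Γ₀(N) 2, ∀ n : ℕ,
      qCoeff ⇑f n = ι ((m (b i)).coeff (n : ℤ)) := fun i => hform (b i) (b i).2
  choose f hf using hf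
  have hli_f : LinearIndependent ℂ f := by
    rw [linearIndependent_iff']
    intro t c hc
    refine linearIndependent_iff'.mp hli_c t c ?_
    ext n
    simp only [HahnSeries.coeff_sum, HahnSeries.coeff_smul, coeffMap_coeff, smul_eq_mul,
      HahnSeries.coeff_zero]
    rcases lt_or_ge n 0 with hn | hn
    · refine Finset.sum_eq_zero fun i _ => ?_
      rw [hm, hneg (b i) (b i).2 n hn, map_zero, mul_zero]
    · obtain ⟨k, rfl⟩ := Int.eq_ofNat_of_zero_le hn
      have h1 := congrArg (qCoeffLin N k) hc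
      rw [map_sum, map_zero] at h1
      rw [← h1]
      refine Finset.sum_congr rfl fun i _ => ?_
      rw [map_smul, qCoeffLin_apply, hf i k, smul_eq_mul]
  have hcard : Fintype.card (Fin g) = Module.finrank ℂ (CuspForm Γ₀(N) 2) := by
    have h1 := hli_f.fintype_card_le_finrank
    rw [Fintype.card_fin] at h1 ⊢
    omega
  have hspan := hli_f.span_eq_top_of_card_eq_finrank' hcard
  rw [eq_top_iff, ← hspan]
  refine Submodule.span_mono ?_
  rintro _ ⟨i, rfl⟩
  exact ⟨b i, (b i).2, hf i⟩

/-- **S23 from the dictionary and the dimension count** (final reduction): it remains to supply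
* `hx`: `j` generates the function field (S24 chain),
* `θ`: a nonzero Laurent series with rational coefficients (the expansion of `q dj/dq`),
* `hneg`, `hform`: the dictionary (every regular `h dj` is a cusp form with `q`-expansion
  `ι (h θ)`),
* `hdim`: `dim S₂(Γ₀(N)) ≤ dim Ω(0)` (S20 + S24 + Riemann–Roch). -/
theorem hasIntegralStructure_of_dictionary_of_finrank_le (θ : LaurentSeries Kbar)
    (hθ : ∀ σ : Kbar ≃ₐ[ℚ] Kbar, coeffMap (σ : Kbar →+* Kbar) θ = θ) (hθ0 : θ ≠ 0)
    (ι : Kbar →+* ℂ)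
    (hneg : ∀ h ∈ regCoeff hx, ∀ n : ℤ, n < 0 → ((h : LaurentSeries Kbar) * θ).coeff n = 0)
    (hform : ∀ h ∈ regCoeff hx, ∃ f : CuspForm Γ₀(N) 2, ∀ n : ℕ,
      qCoeff ⇑f n = ι (((h : LaurentSeries Kbar) * θ).coeff (n : ℤ)))
    [FiniteDimensional ℂ (CuspForm Γ₀(N) 2)]
    (hdim : Module.finrank ℂ (CuspForm Γ₀(N) 2) ≤ Module.finrank Kbar ↥(regCoeff hx)) :
    CuspForm.HasIntegralStructure N 2 :=
  hasIntegralStructure_of_dictionary N hx θ hθ ι hform
    (span_eq_top_of_dictionary N hx θ hθ0 ι hneg hform hdim)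

end Fermat.Agent.S23Lib
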