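/-
S23: the dictionary in the form needed for the integral structure: for a regular differential
`h dj` the series `h · θ(j)` has no polar part and is the `q`-expansion of a cusp form.
-/
import Mathlib
import Fermat.Agent.Lib.S23.DictSpan
import Fermat.Agent.Lib.S23.ThetaJ
import Fermat.Agent.Lib.ES.DictMain
import Fermat.Agent.Lib.S24.GenusRR
import Fermat.Agent.S20

set_option autoImplicit false
set_option linter.unusedSectionVars false

namespace Fermat.Agent.S23Lib

open ModularCurve AlgebraicCurve ModularFormClass UpperHalfPlane Derivative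
open Fermat.Agent.S24Lib Fermat.Agent.Curve Fermat.Agent.ES
open Fermat.Agent.Lib.Helper8

local notation "Kbar" => AlgebraicClosure ℚ
local notation "Γ₀(" N ")" => CongruenceSubgroup.Gamma0 N

/-- the expansion of `jPrime = E₄² E₆ / Δ` is a nonzero constant multiple of `θ(j)` -/
theorem exists_qLaurent_jPrime :
    ∃ c : ℂ, c ≠ 0 ∧ HahnSeries.C c * qLaurent 1 jPrime = thetaJ ℂ := by
  obtain ⟨c, hc, h⟩ := exists_D_jFun
  refine ⟨c, hc, ?_⟩
  rw [← qLaurent_D_jFun]
  have hfun : D jFun = fun z => (fun _ : ℍ => c) z * jPrime z := by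
    funext τ
    rw [h τ, jPrime, mul_div_assoc]
  rw [hfun, qLaurent_mul (IsQLaurentable.const 1 c) isQLaurentable_jPrime, qLaurent_const]

variable (N : ℕ) [NeZero N]
variable (hx : IsFunctionFieldGen Kbar (modularFunctionFieldBar N) (jBar N))

/-- the dictionary: the cusp form attached to `h ∈ regCoeff hx`, normalised to have
`q`-expansion `h · θ(j)` -/
theorem exists_cuspForm_thetaJ {h : modularFunctionFieldBar N} (hh : h ∈ regCoeff hx) :
    ∃ f : CuspForm Γ₀(N) 2,
      HahnSeries.ofPowerSeries ℤ ℂ (qExpansion 1 (f : ℍ → ℂ))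
        = coeffMap iotaC ((h : LaurentSeries Kbar) * thetaJ Kbar) := by
  obtain ⟨c, hc, hcθ⟩ := exists_qLaurent_jPrime
  obtain ⟨f, hf⟩ := exists_cuspForm_qExpansion N hx ((mem_regCoeff hx).mp hh)
  refine ⟨c • f, ?_⟩
  have h1 : qExpansion 1 ((c • f : CuspForm Γ₀(N) 2) : ℍ → ℂ)
      = c • qExpansion 1 (f : ℍ → ℂ) := by
    have h0 : ⇑(c • f) = c • ⇑f := by
      ext z
      simp
    rw [h0]
    exact ModularForm.qExpansion_smul one_pos (h8_hΓ N) c f
  rw [h1, map_mul, coeffMap_thetaJ, ← hcθ]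
  have h2 : HahnSeries.ofPowerSeries ℤ ℂ (c • qExpansion 1 (f : ℍ → ℂ))
      = HahnSeries.C c * HahnSeries.ofPowerSeries ℤ ℂ (qExpansion 1 (f : ℍ → ℂ)) := by
    rw [← HahnSeries.ofPowerSeries_C, ← map_mul]
    congr 1
    ext n
    simp
  rw [h2, hf]
  ring

theorem coeff_mul_thetaJ_of_neg {h : modularFunctionFieldBar N} (hh : h ∈ regCoeff hx)
    {n : ℤ} (hn : n < 0) : ((h : LaurentSeries Kbar) * thetaJ Kbar).coeff n = 0 := by
  obtain ⟨f, hf⟩ := exists_cuspForm_thetaJ N hx hh
  have := congrArg (fun x : LaurentSeries ℂ => x.coeff n) hf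
  simp only [coeffMap_coeff] at this
  rw [ofPowerSeries_coeff_of_neg _ hn] at this
  exact iotaC.injective (this.symm.trans (map_zero iotaC).symm)

theorem exists_cuspForm_qCoeff {h : modularFunctionFieldBar N} (hh : h ∈ regCoeff hx) :
    ∃ f : CuspForm Γ₀(N) 2, ∀ n : ℕ,
      qCoeff ⇑f n = iotaC (((h : LaurentSeries Kbar) * thetaJ Kbar).coeff (n : ℤ)) := by
  obtain ⟨f, hf⟩ := exists_cuspForm_thetaJ N hx hh
  refine ⟨f, fun n => ?_⟩
  have := congrArg (fun x : LaurentSeries ℂ => x.coeff (n : ℤ)) hf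
  simp only [coeffMap_coeff, HahnSeries.ofPowerSeries_apply_coeff] at this
  exact this

/-- **S23**: `S₂(Γ₀(N))` has an integral structure. -/
theorem hasIntegralStructure_two : CuspForm.HasIntegralStructure N 2 := by
  have hx := isFunctionFieldGen_jBar N
  refine hasIntegralStructure_of_dictionary_of_finrank_le N hx (thetaJ Kbar)
    (fun σ => coeffMap_thetaJ _) (thetaJ_ne_zero Kbar) iotaC
    (fun h hh n hn => coeff_mul_thetaJ_of_neg N hx hh hn)
    (fun h hh => exists_cuspForm_qCoeff N hx hh) ?_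
  rw [finrank_regCoeff hx]
  have h1 := Fermat.Agent.S20.result N
  have h2 := genusR_eq_genusFormula N
  have : (Module.finrank ℂ (CuspForm Γ₀(N) 2) : ℚ)
      = (genusR Kbar (modularFunctionFieldBar N) : ℚ) := by rw [h1, h2]
  exact le_of_eq (by exact_mod_cast this)

end Fermat.Agent.S23Lib
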